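/-
P-ES / E6-FIN (helper96): the residue field of `A ∩ K₁` is finite
(`Fermat.Agent.H9.E6.ResFiniteStatement`), by the fundamental inequality
`dim_{𝔽_ℓ} k₁ ≤ [K₁ : ℚ]`.
-/
import Fermat.Agent.H9.E6.Interfaces2

set_option autoImplicit false

noncomputable section

namespace Fermat.Agent.H96.E6

open scoped Cardinal

section Generic

variable {K : Type} [Field K] [CharZero K] (V : ValuationSubring K) {ℓ : ℕ}

/-- Lifts of an `𝔽_ℓ`-linearly independent family of the residue field are `ℤ`-linearly
independent. -/
theorem intLinearIndependent_of_residue (hℓ : ℓ.Prime)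
    (h0 : (ℓ : IsLocalRing.ResidueField V) = 0) {ι : Type} [Fintype ι] (x : ι → V)
    (hx : ∀ c : ι → ZMod ℓ,
      ∑ i, ((c i).val : IsLocalRing.ResidueField V) * IsLocalRing.residue V (x i) = 0 →
        ∀ i, c i = 0) :
    ∀ (n : ℕ) (g : ι → ℤ), ∑ i, (g i).natAbs = n → ∑ i, (g i : K) * (x i : K) = 0 →
      ∀ i, g i = 0 := by
  have : Fact ℓ.Prime := ⟨hℓ⟩
  intro n
  induction n using Nat.strong_induction_on with
  | _ n ih =>
    intro g hn hrel
    -- reduce modulo the maximal ideal
    have hV : ∑ i, ((g i : ℤ) : V) * x i = 0 := by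
      apply Subtype.ext
      rw [ZeroMemClass.coe_zero, ← hrel, AddSubmonoidClass.coe_finsetSum]
      refine Finset.sum_congr rfl fun i _ => ?_
      rw [MulMemClass.coe_mul]
      congr 1
    have hres := congrArg (IsLocalRing.residue V) hV
    rw [map_sum, map_zero] at hres
    have hcast : ∀ m : ℤ, (((m : ZMod ℓ).val : ℕ) : IsLocalRing.ResidueField V)
        = (m : IsLocalRing.ResidueField V) := by
      intro m
      have h1 : (ℓ : ℤ) ∣ (((m : ZMod ℓ).val : ℕ) : ℤ) - m := by
        rw [← ZMod.intCast_zmod_eq_zero_iff_dvd]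
        push_cast
        rw [ZMod.natCast_zmod_val, sub_self]
      obtain ⟨t, ht⟩ := h1
      have h2 : ((((m : ZMod ℓ).val : ℕ) : ℤ) : IsLocalRing.ResidueField V)
          = ((m + (ℓ : ℤ) * t : ℤ) : IsLocalRing.ResidueField V) := by
        congr 1
        linarith
      rw [Int.cast_natCast] at h2
      rw [h2]
      push_cast
      rw [h0, zero_mul, add_zero]
    have hdvd : ∀ i, (ℓ : ℤ) ∣ g i := by
      intro i
      rw [← ZMod.intCast_zmod_eq_zero_iff_dvd]
      refine hx (fun i => (g i : ZMod ℓ)) ?_ i
      rw [← hres]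
      refine Finset.sum_congr rfl fun i _ => ?_
      rw [hcast, map_mul, map_intCast]
    choose g' hg' using hdvd
    have hℓK : (ℓ : K) ≠ 0 := Nat.cast_ne_zero.mpr hℓ.ne_zero
    have hrel' : ∑ i, (g' i : K) * (x i : K) = 0 := by
      have : (ℓ : K) * ∑ i, (g' i : K) * (x i : K) = 0 := by
        rw [← hrel, Finset.mul_sum]
        refine Finset.sum_congr rfl fun i _ => ?_
        rw [hg' i]
        push_cast
        ring
      exact (mul_eq_zero.mp this).resolve_left hℓK
    by_cases hzero : ∀ i, g' i = 0
    · intro i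
      rw [hg' i, hzero i, mul_zero]
    · exfalso
      push Not at hzero
      obtain ⟨j, hj⟩ := hzero
      have hlt : ∑ i, (g' i).natAbs < n := by
        rw [← hn]
        apply Finset.sum_lt_sum
        · intro i _
          rw [hg' i, Int.natAbs_mul, Int.natAbs_natCast]
          exact Nat.le_mul_of_pos_left _ hℓ.pos
        · refine ⟨j, Finset.mem_univ _, ?_⟩
          rw [hg' j, Int.natAbs_mul, Int.natAbs_natCast]
          have hpos : 0 < (g' j).natAbs := Int.natAbs_pos.mpr hj
          have := hℓ.two_le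
          nlinarith
      exact hj (ih _ hlt g' rfl hrel' j)

end Generic

/-- **E6-FIN.** -/
theorem resFinite : Fermat.Agent.H9.E6.ResFiniteStatement := by
  intro K₁ L _ _ _ ι A ℓ hℓ hA
  have : Fact ℓ.Prime := ⟨hℓ⟩
  set V : ValuationSubring K₁ := A.comap ι with hV
  -- `ℓ` lies in the maximal ideal of `V`
  have hℓK : (ℓ : K₁) ≠ 0 := Nat.cast_ne_zero.mpr hℓ.ne_zero
  have hℓV : (ℓ : K₁) ∈ V.nonunits := by
    rw [ValuationSubring.mem_nonunits_iff_or]
    right
    intro hmem
    rw [ValuationSubring.mem_nonunits_iff_or] at hA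
    rcases hA with h0 | hinv
    · apply hℓK
      apply ι.injective
      rw [map_natCast, map_zero, h0]
    · apply hinv
      have : ι ((ℓ : K₁)⁻¹) ∈ A := hmem
      rwa [map_inv₀, map_natCast] at this
  have hℓmem : (ℓ : K₁) ∈ V := V.nonunits_le hℓV
  have h0 : (ℓ : IsLocalRing.ResidueField V) = 0 := by
    have h1 : IsLocalRing.residue V ⟨(ℓ : K₁), hℓmem⟩ = 0 := by
      rw [IsLocalRing.residue_eq_zero_iff, ← ValuationSubring.coe_mem_nonunits_iff]
      exact hℓV
    have h2 : (⟨(ℓ : K₁), hℓmem⟩ : V) = ((ℓ : ℕ) : V) := by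
      apply Subtype.ext
      push_cast
      rfl
    rw [h2, map_natCast] at h1
    exact h1
  have : CharP (IsLocalRing.ResidueField V) ℓ := (CharP.charP_iff_prime_eq_zero hℓ).mpr h0
  let _ : Algebra (ZMod ℓ) (IsLocalRing.ResidueField V) := ZMod.algebra _ ℓ
  -- the fundamental inequality
  have hrank : Module.rank (ZMod ℓ) (IsLocalRing.ResidueField V)
      ≤ (Module.finrank ℚ K₁ : ℕ) := by
    refine rank_le fun s hs => ?_
    classical
    choose lift hlift using fun y : IsLocalRing.ResidueField V =>
      IsLocalRing.residue_surjective y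
    have hli : LinearIndependent ℤ (fun i : s => ((lift (i : IsLocalRing.ResidueField V) : V) : K₁)) := by
      rw [Fintype.linearIndependent_iff]
      intro g hg i
      refine intLinearIndependent_of_residue V hℓ h0 (fun i : s => lift (i : IsLocalRing.ResidueField V))
        ?_ _ g rfl ?_ i
      · intro c hc
        rw [Fintype.linearIndependent_iff] at hs
        refine hs c ?_
        rw [← hc]
        refine Finset.sum_congr rfl fun i _ => ?_
        rw [hlift, Algebra.smul_def]
        congr 1
        rw [← ZMod.natCast_zmod_val (c i), map_natCast, ZMod.natCast_zmod_val]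
      · rw [← hg]
        refine Finset.sum_congr rfl fun i _ => ?_
        rw [zsmul_eq_mul]
    have hli' : LinearIndependent ℚ (fun i : s => ((lift (i : IsLocalRing.ResidueField V) : V) : K₁)) :=
      (LinearIndependent.iff_fractionRing ℤ ℚ).mp hli
    have := hli'.fintype_card_le_finrank
    rwa [Fintype.card_coe] at this
  have hfin : Module.Finite (ZMod ℓ) (IsLocalRing.ResidueField V) := by
    rw [← Module.rank_lt_aleph0_iff]
    exact lt_of_le_of_lt hrank Cardinal.natCast_lt_aleph0
  exact Module.finite_of_finite (ZMod ℓ)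

end Fermat.Agent.H96.E6

end
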